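/-
S52 / project (P), brick (ISO-3 POINT), instance — helper3.

The explicit point of exact order `5` on the icosahedral curve
`y² = x³ - 16875 η x - 843750 θ`, `η = eta X Y`, `θ = theta X Y`, over ANY field `K` in which
`η³ ≠ θ²` and `30 ≠ 0`, given `g ρ : K` with `g² = g + 1`, `ρ² = 18 - 11 g`
(they exist in every algebraically closed field, and in every extension of one).
-/
import Mathlib
import Fermat.Agent.S52P.Iso.PointData3

set_option autoImplicit false

namespace Fermat.Agent.S52P.Iso.PointInst3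

open WeierstrassCurve Fermat.Agent.S52P.Iso.Point3 Fermat.Agent.S52P.Iso.PointData3

variable {K : Type*}

/-- The icosahedral short curve `y² = x³ - 16875 e x - 843750 h`
(`c₄ = 30⁴ e`, `c₆ = 30⁶ h`). -/
def shortE [CommRing K] (e h : K) : WeierstrassCurve K := shortW (-16875 * e) (-843750 * h)

theorem shortE_eq [CommRing K] (e h : K) :
    shortE e h = ⟨0, 0, 0, -16875 * e, -843750 * h⟩ := rfl

theorem shortE_c₄ [CommRing K] (e h : K) : (shortE e h).c₄ = 30 ^ 4 * e := by
  rw [shortE, shortW_c₄]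
  ring

theorem shortE_c₆ [CommRing K] (e h : K) : (shortE e h).c₆ = 30 ^ 6 * h := by
  rw [shortE, shortW_c₆]
  ring

theorem shortE_Δ [CommRing K] (e h : K) :
    (shortE e h).Δ = 307546875000000 * (e ^ 3 - h ^ 2) := by
  rw [shortE, shortW_Δ]
  ring

theorem shortE_Δ_1728 [CommRing K] (e h : K) :
    1728 * (shortE e h).Δ = 30 ^ 12 * (e ^ 3 - h ^ 2) := by
  rw [shortE_Δ]
  ring

/-- `g` and `ρ` exist in an algebraically closed field. -/
theorem exists_g_rho (k : Type*) [Field k] [IsAlgClosed k] :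
    ∃ g ρ : k, g ^ 2 = g + 1 ∧ ρ ^ 2 = 18 - 11 * g := by
  -- a root of `X² - X - 1` (no hypothesis on the characteristic)
  obtain ⟨g, hg⟩ : ∃ g : k, g ^ 2 = g + 1 := by
    have hdeg : (Polynomial.X ^ 2 - Polynomial.X - 1 : Polynomial k).degree ≠ 0 := by
      have h : (Polynomial.X ^ 2 - Polynomial.X - 1 : Polynomial k)
          = Polynomial.X ^ 2 - (Polynomial.X + 1) := by ring
      rw [h, Polynomial.degree_sub_eq_left_of_degree_lt]
      · rw [Polynomial.degree_X_pow]; decide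
      · rw [Polynomial.degree_X_pow]
        exact lt_of_le_of_lt (Polynomial.degree_X_add_C (1 : k)).le (by decide)
    obtain ⟨g, hg⟩ := IsAlgClosed.exists_root _ hdeg
    refine ⟨g, ?_⟩
    simp only [Polynomial.IsRoot.def, Polynomial.eval_sub, Polynomial.eval_pow,
      Polynomial.eval_X, Polynomial.eval_one] at hg
    linear_combination hg
  obtain ⟨ρ, hρ⟩ := IsAlgClosed.exists_pow_nat_eq (18 - 11 * g) (n := 2) (by norm_num)
  exact ⟨g, ρ, hg, hρ⟩

variable [Field K] [DecidableEq K]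

/-- **(ISO-3)**: the explicit nonzero point of order `5` of `shortE (eta X Y) (theta X Y)`. -/
theorem exists_point (g ρ X Y : K) (hg : g ^ 2 = g + 1) (hρ : ρ ^ 2 = 18 - 11 * g)
    (hΔ : (shortE (eta X Y) (theta X Y)).Δ ≠ 0) :
    ∃ P : (shortE (eta X Y) (theta X Y)).toAffine.Point,
      P ≠ 0 ∧ (5 : ℤ) • P = 0 ∧ (5 : ℕ) • P = 0 := by
  refine exists_point_of_psi5 (-16875 * eta X Y) (-843750 * theta X Y) (xP g X Y)
    (2700 * ρ * y3 g X Y) hΔ ?_ (xP_psi5 g X Y hg)
  have h := xP_cubic g X Y hg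
  linear_combination (7290000 * y3 g X Y ^ 2) * hρ - h

/-- **(ISO-3)**, coordinates exposed: the point `(xP, 2700 ρ y3)` itself. -/
theorem exists_point_coords (g ρ X Y : K) (hg : g ^ 2 = g + 1) (hρ : ρ ^ 2 = 18 - 11 * g)
    (hΔ : (shortE (eta X Y) (theta X Y)).Δ ≠ 0) :
    ∃ hns : (shortE (eta X Y) (theta X Y)).toAffine.Nonsingular (xP g X Y)
        (2700 * ρ * y3 g X Y),
      (5 : ℕ) • (Affine.Point.some (xP g X Y) (2700 * ρ * y3 g X Y) hns) = 0 := by
  have hxy : (2700 * ρ * y3 g X Y) ^ 2 =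
      xP g X Y ^ 3 + -16875 * eta X Y * xP g X Y + -843750 * theta X Y := by
    have h := xP_cubic g X Y hg
    linear_combination (7290000 * y3 g X Y ^ 2) * hρ - h
  refine ⟨nonsingular_of_eq _ _ _ _ hΔ hxy, ?_⟩
  have h5 := five_zsmul_eq_zero (-16875 * eta X Y) (-843750 * theta X Y) (xP g X Y)
    (2700 * ρ * y3 g X Y) hΔ hxy (xP_psi5 g X Y hg)
  exact_mod_cast h5

/-- **(ISO-3)** over an extension `K` of an algebraically closed field `k` (e.g.
`K = RatFunc k`): a nonzero point of order `5` on `shortE (eta X Y) (theta X Y)` as soon as the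
discriminant does not vanish. -/
theorem exists_point_of_isAlgClosed (k : Type*) [Field k] [IsAlgClosed k] [Algebra k K]
    (X Y : K) (hΔ : (shortE (eta X Y) (theta X Y)).Δ ≠ 0) :
    ∃ P : (shortE (eta X Y) (theta X Y)).toAffine.Point, P ≠ 0 ∧ (5 : ℕ) • P = 0 := by
  obtain ⟨g, ρ, hg, hρ⟩ := exists_g_rho k
  have hg' : (algebraMap k K g) ^ 2 = algebraMap k K g + 1 := by
    rw [← map_pow, hg, map_add, map_one]
  have hρ' : (algebraMap k K ρ) ^ 2 = 18 - 11 * algebraMap k K g := by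
    rw [← map_pow, hρ, map_sub, map_mul, map_ofNat, map_ofNat]
  obtain ⟨P, hP, -, h5⟩ := exists_point (algebraMap k K g) (algebraMap k K ρ) X Y hg' hρ' hΔ
  exact ⟨P, hP, h5⟩

end Fermat.Agent.S52P.Iso.PointInst3
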