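/-
S52 (P) — brick ISO-1 (PLACE): the place `t = t₀` of the rational function field `RatFunc k`.

* `placeAt t₀ : ValuationSubring (RatFunc k)` — the functions whose reduced denominator does not
  vanish at `t₀`;
* `resAt t₀ : placeAt t₀ →+* k` — evaluation at `t₀` (`RatFunc.eval`), a surjective local ring hom;
* `rd_algebraMap`, `rd_C`, `rd_X` — polynomials reduce to their values, in the sense of
  `Fermat.Agent.S58.Red.Rd`.
-/
import Mathlib
import Fermat.Agent.S58.Red.Core

set_option autoImplicit false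

namespace Fermat.Agent.S52P.Place

open Polynomial Fermat.Agent.S58.Red

variable {k : Type*} [Field k]

theorem eval_denom_add_ne_zero {t₀ : k} {f g : RatFunc k} (hf : (RatFunc.denom f).eval t₀ ≠ 0)
    (hg : (RatFunc.denom g).eval t₀ ≠ 0) : (RatFunc.denom (f + g)).eval t₀ ≠ 0 := by
  obtain ⟨c, hc⟩ := RatFunc.denom_add_dvd f g
  intro h
  have h2 := congrArg (Polynomial.eval t₀) hc
  rw [eval_mul, eval_mul, h, zero_mul] at h2
  exact mul_ne_zero hf hg h2

theorem eval_denom_mul_ne_zero {t₀ : k} {f g : RatFunc k} (hf : (RatFunc.denom f).eval t₀ ≠ 0)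
    (hg : (RatFunc.denom g).eval t₀ ≠ 0) : (RatFunc.denom (f * g)).eval t₀ ≠ 0 := by
  obtain ⟨c, hc⟩ := RatFunc.denom_mul_dvd f g
  intro h
  have h2 := congrArg (Polynomial.eval t₀) hc
  rw [eval_mul, eval_mul, h, zero_mul] at h2
  exact mul_ne_zero hf hg h2

theorem eval_denom_neg_ne_zero {t₀ : k} {f : RatFunc k} (hf : (RatFunc.denom f).eval t₀ ≠ 0) :
    (RatFunc.denom (-f)).eval t₀ ≠ 0 := by
  have h1 : -f = RatFunc.C (-1 : k) * f := by
    rw [map_neg, map_one, neg_one_mul]
  rw [h1]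
  refine eval_denom_mul_ne_zero ?_ hf
  rw [RatFunc.denom_C, eval_one]
  exact one_ne_zero

/-- If the denominator vanishes at `t₀`, the numerator does not. -/
theorem eval_num_ne_zero_of_eval_denom_eq_zero {t₀ : k} {f : RatFunc k}
    (hf : (RatFunc.denom f).eval t₀ = 0) : (RatFunc.num f).eval t₀ ≠ 0 := by
  intro hn
  obtain ⟨a, b, hab⟩ := RatFunc.isCoprime_num_denom f
  have h2 := congrArg (Polynomial.eval t₀) hab
  rw [eval_add, eval_mul, eval_mul, hn, hf, mul_zero, mul_zero, add_zero, eval_one] at h2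
  exact zero_ne_one h2

theorem eval_denom_inv_ne_zero {t₀ : k} {f : RatFunc k} (hf0 : f ≠ 0)
    (hn : (RatFunc.num f).eval t₀ ≠ 0) : (RatFunc.denom f⁻¹).eval t₀ ≠ 0 := by
  obtain ⟨c, hc⟩ := RatFunc.denom_inv_dvd hf0
  intro h
  have h2 := congrArg (Polynomial.eval t₀) hc
  rw [eval_mul, h, zero_mul] at h2
  exact hn h2

/-- **The place `t = t₀`** of `RatFunc k`: functions regular at `t₀`. -/
def placeAt (t₀ : k) : ValuationSubring (RatFunc k) where
  carrier := {f | (RatFunc.denom f).eval t₀ ≠ 0}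
  mul_mem' hf hg := eval_denom_mul_ne_zero hf hg
  one_mem' := by
    show (RatFunc.denom (1 : RatFunc k)).eval t₀ ≠ 0
    rw [RatFunc.denom_one, eval_one]
    exact one_ne_zero
  add_mem' hf hg := eval_denom_add_ne_zero hf hg
  zero_mem' := by
    show (RatFunc.denom (0 : RatFunc k)).eval t₀ ≠ 0
    rw [RatFunc.denom_zero, eval_one]
    exact one_ne_zero
  neg_mem' hf := eval_denom_neg_ne_zero hf
  mem_or_inv_mem' f := by
    by_cases hf : (RatFunc.denom f).eval t₀ = 0
    · right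
      have hn := eval_num_ne_zero_of_eval_denom_eq_zero hf
      have hf0 : f ≠ 0 := by
        rintro rfl
        rw [RatFunc.num_zero, eval_zero] at hn
        exact hn rfl
      exact eval_denom_inv_ne_zero hf0 hn
    · left
      exact hf

theorem mem_placeAt {t₀ : k} {f : RatFunc k} :
    f ∈ placeAt t₀ ↔ (RatFunc.denom f).eval t₀ ≠ 0 := Iff.rfl

theorem algebraMap_mem_placeAt (t₀ : k) (p : k[X]) :
    algebraMap k[X] (RatFunc k) p ∈ placeAt t₀ := by
  rw [mem_placeAt, RatFunc.denom_algebraMap, eval_one]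
  exact one_ne_zero

theorem C_mem_placeAt (t₀ : k) (c : k) : RatFunc.C c ∈ placeAt t₀ := by
  rw [mem_placeAt, RatFunc.denom_C, eval_one]
  exact one_ne_zero

theorem X_mem_placeAt (t₀ : k) : (RatFunc.X : RatFunc k) ∈ placeAt t₀ := by
  rw [mem_placeAt, RatFunc.denom_X, eval_one]
  exact one_ne_zero

/-- **Evaluation at `t₀`**, as a ring hom on the place. -/
noncomputable def resAt (t₀ : k) : placeAt t₀ →+* k where
  toFun f := RatFunc.eval (RingHom.id k) t₀ (f : RatFunc k)
  map_one' := RatFunc.eval_one _ _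
  map_mul' f g := by
    show RatFunc.eval (RingHom.id k) t₀ ((f : RatFunc k) * (g : RatFunc k)) = _
    refine RatFunc.eval_mul _ _ ?_ ?_
    · rw [eval₂_id]; exact f.2
    · rw [eval₂_id]; exact g.2
  map_zero' := RatFunc.eval_zero _ _
  map_add' f g := by
    show RatFunc.eval (RingHom.id k) t₀ ((f : RatFunc k) + (g : RatFunc k)) = _
    refine RatFunc.eval_add _ _ ?_ ?_
    · rw [eval₂_id]; exact f.2
    · rw [eval₂_id]; exact g.2

theorem resAt_apply (t₀ : k) (f : placeAt t₀) :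
    resAt t₀ f = (RatFunc.num (f : RatFunc k)).eval t₀ / (RatFunc.denom (f : RatFunc k)).eval t₀ := by
  show RatFunc.eval (RingHom.id k) t₀ (f : RatFunc k) = _
  rw [RatFunc.eval, eval₂_id, eval₂_id]

theorem resAt_algebraMap (t₀ : k) (p : k[X]) :
    resAt t₀ ⟨algebraMap k[X] (RatFunc k) p, algebraMap_mem_placeAt t₀ p⟩ = p.eval t₀ := by
  rw [resAt_apply]
  show (RatFunc.num (algebraMap k[X] (RatFunc k) p)).eval t₀ /
    (RatFunc.denom (algebraMap k[X] (RatFunc k) p)).eval t₀ = _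
  rw [RatFunc.num_algebraMap, RatFunc.denom_algebraMap, eval_one, div_one]

instance instIsLocalHomResAt (t₀ : k) : IsLocalHom (resAt t₀) where
  map_nonunit f hf := by
    have h0 : resAt t₀ f ≠ 0 := hf.ne_zero
    rw [resAt_apply] at h0
    have hn : (RatFunc.num (f : RatFunc k)).eval t₀ ≠ 0 := by
      intro h
      rw [h, zero_div] at h0
      exact h0 rfl
    have hf0 : (f : RatFunc k) ≠ 0 := by
      intro h
      rw [h, RatFunc.num_zero, eval_zero] at hn
      exact hn rfl
    have hinv : (f : RatFunc k)⁻¹ ∈ placeAt t₀ := eval_denom_inv_ne_zero hf0 hn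
    refine IsUnit.of_mul_eq_one (⟨(f : RatFunc k)⁻¹, hinv⟩ : placeAt t₀) ?_
    apply Subtype.ext
    show (f : RatFunc k) * (f : RatFunc k)⁻¹ = 1
    exact mul_inv_cancel₀ hf0

/-- **Polynomials reduce to their values.** -/
theorem rd_algebraMap (t₀ : k) (p : k[X]) :
    Rd (placeAt t₀) (resAt t₀) (algebraMap k[X] (RatFunc k) p) (p.eval t₀) :=
  ⟨⟨algebraMap k[X] (RatFunc k) p, algebraMap_mem_placeAt t₀ p⟩, rfl, resAt_algebraMap t₀ p⟩

theorem rd_C (t₀ : k) (c : k) : Rd (placeAt t₀) (resAt t₀) (RatFunc.C c) c := by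
  have h := rd_algebraMap t₀ (Polynomial.C c)
  rwa [RatFunc.algebraMap_C, eval_C] at h

theorem rd_X (t₀ : k) : Rd (placeAt t₀) (resAt t₀) (RatFunc.X : RatFunc k) t₀ := by
  have h := rd_algebraMap t₀ (Polynomial.X : k[X])
  rwa [RatFunc.algebraMap_X, eval_X] at h

theorem resAt_surjective (t₀ : k) : Function.Surjective (resAt t₀) := fun c => by
  obtain ⟨a, -, ha⟩ := rd_C t₀ c
  exact ⟨a, ha⟩

/-- A function regular at `t₀` reduces to its value `num(t₀) / denom(t₀)`. -/
theorem rd_of_mem_placeAt {t₀ : k} {f : RatFunc k} (hf : f ∈ placeAt t₀) :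
    Rd (placeAt t₀) (resAt t₀) f ((RatFunc.num f).eval t₀ / (RatFunc.denom f).eval t₀) :=
  ⟨⟨f, hf⟩, rfl, resAt_apply t₀ ⟨f, hf⟩⟩

/-- A quotient of polynomials with denominator nonvanishing at `t₀` reduces to the quotient of
the values. -/
theorem rd_div (t₀ : k) (p q : k[X]) (hq : q.eval t₀ ≠ 0) :
    Rd (placeAt t₀) (resAt t₀) (algebraMap k[X] (RatFunc k) p / algebraMap k[X] (RatFunc k) q)
      (p.eval t₀ / q.eval t₀) :=
  (rd_algebraMap t₀ p).div (rd_algebraMap t₀ q) hq

end Fermat.Agent.S52P.Place
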