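/-
S52 (P) — bricks ISO-2 (GAL) + ISO-4 (RED), curve-independent form.

`k₀ ⊆ L` fields, `K = RatFunc L`, `W₀ : WeierstrassCurve k₀[X]` (a curve with polynomial
coefficients over the small field).

* `genCurve k₀ L W₀ : WeierstrassCurve (RatFunc L)` — the generic fibre;
* `specCurve W₀ t₀ : WeierstrassCurve k₀` — the fibre at `t = t₀ ∈ k₀`;
* `model_at` — `S58.Red.Model (placeAt t₀) (resAt t₀) (generic fibre) (fibre at t₀ over L)`;
* `galK σ`, `galPt σ` — `σ : L ≃ₐ[k₀] L` acting on `RatFunc L` through the coefficients and on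
  the points of the generic fibre (an additive map); `rd_galK` — it commutes with reduction;
* `redTors` — the reduction map on `n`-torsion (`n ≠ 0` in `L`), an injective additive map
  `genCurve[n] → (specCurve⁄L)[n]`, equivariant for `galPt` / the Prelude's Galois action.
-/
import Mathlib
import Fermat.Prelude.Def_FLTPrelim_GaloisRep
import Fermat.Agent.S52P.Iso.Place
import Fermat.Agent.S58.Red.Tors

set_option autoImplicit false
set_option linter.unusedSectionVars false

namespace Fermat.Agent.S52P.RedAt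

open Polynomial WeierstrassCurve Fermat.Agent.S58.Red Fermat.Agent.S52P.Place
open scoped WeierstrassCurve.Affine

variable (k₀ : Type*) (L : Type*) [Field k₀] [Field L] [Algebra k₀ L]

/-- The structure map `k₀[X] → RatFunc L`. -/
noncomputable def toGen : k₀[X] →+* RatFunc L :=
  (algebraMap L[X] (RatFunc L)).comp (mapRingHom (algebraMap k₀ L))

theorem toGen_apply (p : k₀[X]) :
    toGen k₀ L p = algebraMap L[X] (RatFunc L) (p.map (algebraMap k₀ L)) := rfl

/-- The generic fibre of a Weierstrass curve with coefficients in `k₀[X]`. -/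
noncomputable def genCurve (W₀ : WeierstrassCurve k₀[X]) : WeierstrassCurve (RatFunc L) :=
  W₀.map (toGen k₀ L)

variable {k₀}

/-- The fibre at `t = t₀`. -/
noncomputable def specCurve (W₀ : WeierstrassCurve k₀[X]) (t₀ : k₀) : WeierstrassCurve k₀ :=
  W₀.map (evalRingHom t₀)

variable {L}

theorem rd_toGen (t₀ : k₀) (p : k₀[X]) :
    Rd (placeAt (algebraMap k₀ L t₀)) (resAt (algebraMap k₀ L t₀)) (toGen k₀ L p)
      (algebraMap k₀ L (p.eval t₀)) := by
  have h := rd_algebraMap (algebraMap k₀ L t₀) (p.map (algebraMap k₀ L))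
  rwa [eval_map, eval₂_at_apply] at h

/-- **The generic fibre is a model of the fibre at `t₀`** at the place `t = t₀`. -/
theorem model_at (W₀ : WeierstrassCurve k₀[X]) (t₀ : k₀) :
    Model (placeAt (algebraMap k₀ L t₀)) (resAt (algebraMap k₀ L t₀))
      (genCurve k₀ L W₀).toAffine ((specCurve W₀ t₀).toAffine⁄L) where
  a₁ := rd_toGen t₀ W₀.a₁
  a₂ := rd_toGen t₀ W₀.a₂
  a₃ := rd_toGen t₀ W₀.a₃
  a₄ := rd_toGen t₀ W₀.a₄
  a₆ := rd_toGen t₀ W₀.a₆

/-! ### The Galois action on `RatFunc L` through the coefficients -/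

theorem nonZeroDivisors_le_comap_map (σ : L ≃ₐ[k₀] L) :
    nonZeroDivisors L[X] ≤
      Submonoid.comap (mapRingHom (σ : L →+* L)) (nonZeroDivisors L[X]) := by
  intro p hp
  rw [Submonoid.mem_comap, mem_nonZeroDivisors_iff_ne_zero]
  rw [mem_nonZeroDivisors_iff_ne_zero] at hp
  rw [coe_mapRingHom]
  exact (Polynomial.map_ne_zero_iff σ.injective).mpr hp

/-- `σ : L ≃ₐ[k₀] L` acting on `RatFunc L` through the coefficients. -/
noncomputable def galK (σ : L ≃ₐ[k₀] L) : RatFunc L →+* RatFunc L :=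
  RatFunc.mapRingHom (mapRingHom (σ : L →+* L)) (nonZeroDivisors_le_comap_map σ)

theorem galK_div (σ : L ≃ₐ[k₀] L) (p q : L[X]) :
    galK σ (algebraMap L[X] (RatFunc L) p / algebraMap L[X] (RatFunc L) q) =
      algebraMap L[X] (RatFunc L) (p.map (σ : L →+* L)) /
        algebraMap L[X] (RatFunc L) (q.map (σ : L →+* L)) := by
  rw [galK, RatFunc.coe_mapRingHom_eq_coe_map, RatFunc.map_apply_div]
  simp

theorem galK_algebraMap (σ : L ≃ₐ[k₀] L) (p : L[X]) :
    galK σ (algebraMap L[X] (RatFunc L) p) = algebraMap L[X] (RatFunc L) (p.map (σ : L →+* L)) := by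
  have h := galK_div σ p 1
  rwa [map_one, div_one, Polynomial.map_one, map_one, div_one] at h

theorem galK_toGen (σ : L ≃ₐ[k₀] L) (p : k₀[X]) : galK σ (toGen k₀ L p) = toGen k₀ L p := by
  rw [toGen_apply, galK_algebraMap, Polynomial.map_map]
  congr 2
  ext a
  exact σ.commutes a

theorem galK_apply (σ : L ≃ₐ[k₀] L) (f : RatFunc L) :
    galK σ f = algebraMap L[X] (RatFunc L) ((RatFunc.num f).map (σ : L →+* L)) /
      algebraMap L[X] (RatFunc L) ((RatFunc.denom f).map (σ : L →+* L)) := by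
  conv_lhs => rw [← RatFunc.num_div_denom f]
  exact galK_div σ _ _

/-- **`galK σ` commutes with reduction** at a `k₀`-rational place. -/
theorem rd_galK (t₀ : k₀) (σ : L ≃ₐ[k₀] L) {x : RatFunc L} {c : L}
    (h : Rd (placeAt (algebraMap k₀ L t₀)) (resAt (algebraMap k₀ L t₀)) x c) :
    Rd (placeAt (algebraMap k₀ L t₀)) (resAt (algebraMap k₀ L t₀)) (galK σ x) (σ c) := by
  have hx : x ∈ placeAt (algebraMap k₀ L t₀) := h.mem
  have hc : c = (RatFunc.num x).eval (algebraMap k₀ L t₀) /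
      (RatFunc.denom x).eval (algebraMap k₀ L t₀) := h.unique (rd_of_mem_placeAt hx)
  have key : ∀ q : L[X], (q.map (σ : L →+* L)).eval (algebraMap k₀ L t₀) =
      σ (q.eval (algebraMap k₀ L t₀)) := by
    intro q
    have h1 : (algebraMap k₀ L t₀) = (σ : L →+* L) (algebraMap k₀ L t₀) := (σ.commutes t₀).symm
    conv_lhs => rw [h1]
    rw [eval_map, eval₂_at_apply]
    rfl
  have hd : ((RatFunc.denom x).map (σ : L →+* L)).eval (algebraMap k₀ L t₀) ≠ 0 := by
    rw [key]
    exact (map_ne_zero σ).mpr (mem_placeAt.mp hx)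
  have h2 := rd_div (algebraMap k₀ L t₀) ((RatFunc.num x).map (σ : L →+* L))
    ((RatFunc.denom x).map (σ : L →+* L)) hd
  rw [← galK_apply, key, key, ← map_div₀, ← hc] at h2
  exact h2

/-! ### The Galois action on the points of the generic fibre -/

section Points

variable (k₀ L) in
/-- The `k₀[X]`-algebra structure on `RatFunc L` (used only inside this file). -/
@[reducible] noncomputable def algGen : Algebra k₀[X] (RatFunc L) := (toGen k₀ L).toAlgebra

attribute [local instance] algGen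

/-- `galK σ` as an algebra hom over `k₀[X]`. -/
noncomputable def galAlg (σ : L ≃ₐ[k₀] L) : RatFunc L →ₐ[k₀[X]] RatFunc L :=
  { galK σ with commutes' := fun p => galK_toGen σ p }

theorem galAlg_apply (σ : L ≃ₐ[k₀] L) (x : RatFunc L) : galAlg σ x = galK σ x := rfl

variable [DecidableEq L] [DecidableEq (RatFunc L)]

/-- **`σ` acting on the points of the generic fibre** (an additive map). -/
noncomputable def galPt (W₀ : WeierstrassCurve k₀[X]) (σ : L ≃ₐ[k₀] L) :
    (genCurve k₀ L W₀).toAffine.Point →+ (genCurve k₀ L W₀).toAffine.Point :=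
  Affine.Point.map (W' := W₀.toAffine) (galAlg σ)

theorem galPt_some (W₀ : WeierstrassCurve k₀[X]) (σ : L ≃ₐ[k₀] L) {x y : RatFunc L}
    (h : (genCurve k₀ L W₀).toAffine.Nonsingular x y) :
    ∃ h' : (genCurve k₀ L W₀).toAffine.Nonsingular (galK σ x) (galK σ y),
      galPt W₀ σ (Affine.Point.some x y h) = Affine.Point.some (galK σ x) (galK σ y) h' :=
  ⟨_, Affine.Point.map_some (W' := W₀.toAffine) (galAlg σ) h⟩

/-! ### Reduction at `t = t₀` -/

variable (W₀ : WeierstrassCurve k₀[X]) (t₀ : k₀) (hΔ : ((specCurve W₀ t₀).toAffine⁄L).Δ ≠ 0)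

/-- **Reduction commutes with the Galois actions.** -/
theorem redPt_galPt (σ : L ≃ₐ[k₀] L) {P : (genCurve k₀ L W₀).toAffine.Point}
    (hP : IsInt (placeAt (algebraMap k₀ L t₀)) P) :
    redPt (model_at W₀ t₀) hΔ (galPt W₀ σ P) = σ • redPt (model_at W₀ t₀) hΔ P := by
  rcases P with _ | ⟨x, y, h⟩
  · show redPt (model_at W₀ t₀) hΔ (galPt W₀ σ 0) = σ • redPt (model_at W₀ t₀) hΔ 0
    rw [map_zero, redPt_zero, smul_zero]
  · have hxy : x ∈ placeAt (algebraMap k₀ L t₀) ∧ y ∈ placeAt (algebraMap k₀ L t₀) := hP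
    have rx := rd_of_mem (π := resAt (algebraMap k₀ L t₀)) hxy.1
    have ry := rd_of_mem (π := resAt (algebraMap k₀ L t₀)) hxy.2
    have g := (model_at W₀ t₀).nonsingular hΔ h.1 rx ry
    obtain ⟨h', e⟩ := galPt_some W₀ σ h
    have g' := (model_at W₀ t₀).nonsingular hΔ h'.1 (rd_galK t₀ σ rx) (rd_galK t₀ σ ry)
    rw [e, redPt_some_rd (model_at W₀ t₀) hΔ rx ry g,
      redPt_some_rd (model_at W₀ t₀) hΔ (rd_galK t₀ σ rx) (rd_galK t₀ σ ry) g']
    rfl

theorem mem_torsSub_of_mem_torsionBy {n : ℕ} (hn : (n : L) ≠ 0)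
    {P : (genCurve k₀ L W₀).toAffine.Point}
    (hP : P ∈ Submodule.torsionBy ℤ (genCurve k₀ L W₀).toAffine.Point n) :
    P ∈ torsSub L (genCurve k₀ L W₀).toAffine :=
  ⟨(n : ℤ), by simpa using hn, (Submodule.mem_torsionBy_iff _ _).mp hP⟩

theorem galPt_mem_torsionBy (σ : L ≃ₐ[k₀] L) {n : ℕ} {P : (genCurve k₀ L W₀).toAffine.Point}
    (hP : P ∈ Submodule.torsionBy ℤ (genCurve k₀ L W₀).toAffine.Point n) :
    galPt W₀ σ P ∈ Submodule.torsionBy ℤ (genCurve k₀ L W₀).toAffine.Point n := by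
  rw [Submodule.mem_torsionBy_iff] at hP ⊢
  rw [← map_zsmul, hP, map_zero]

/-- `σ` acting on the `n`-torsion of the generic fibre. -/
noncomputable def galTors (σ : L ≃ₐ[k₀] L) (n : ℕ) :
    Submodule.torsionBy ℤ (genCurve k₀ L W₀).toAffine.Point n →+
      Submodule.torsionBy ℤ (genCurve k₀ L W₀).toAffine.Point n where
  toFun P := ⟨galPt W₀ σ P.1, galPt_mem_torsionBy W₀ σ P.2⟩
  map_zero' := Subtype.ext (map_zero _)
  map_add' P Q := Subtype.ext (map_add _ P.1 Q.1)

theorem coe_galTors (σ : L ≃ₐ[k₀] L) (n : ℕ)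
    (P : Submodule.torsionBy ℤ (genCurve k₀ L W₀).toAffine.Point n) :
    (galTors W₀ σ n P : (genCurve k₀ L W₀).toAffine.Point) = galPt W₀ σ P.1 := rfl

/-- **The reduction map on `n`-torsion** (`n ≠ 0` in `L`) at `t = t₀`. -/
noncomputable def redTors (n : ℕ) (hn : (n : L) ≠ 0) :
    Submodule.torsionBy ℤ (genCurve k₀ L W₀).toAffine.Point n →+
      Submodule.torsionBy ℤ ((specCurve W₀ t₀).toAffine⁄L).Point n where
  toFun P := ⟨redPt (model_at W₀ t₀) hΔ P.1, by
    rw [Submodule.mem_torsionBy_iff,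
      ← redPt_zsmul_of_mem (model_at W₀ t₀) hΔ (mem_torsSub_of_mem_torsionBy W₀ hn P.2),
      (Submodule.mem_torsionBy_iff _ _).mp P.2, redPt_zero]⟩
  map_zero' := Subtype.ext (redPt_zero (model_at W₀ t₀) hΔ)
  map_add' P Q := Subtype.ext (redPt_add_of_mem (model_at W₀ t₀) hΔ
    (mem_torsSub_of_mem_torsionBy W₀ hn P.2) (mem_torsSub_of_mem_torsionBy W₀ hn Q.2))

theorem coe_redTors (n : ℕ) (hn : (n : L) ≠ 0)
    (P : Submodule.torsionBy ℤ (genCurve k₀ L W₀).toAffine.Point n) :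
    (redTors W₀ t₀ hΔ n hn P : ((specCurve W₀ t₀).toAffine⁄L).Point) =
      redPt (model_at W₀ t₀) hΔ P.1 := rfl

theorem redTors_injective (n : ℕ) (hn : (n : L) ≠ 0) :
    Function.Injective (redTors W₀ t₀ hΔ n hn) := by
  intro P Q h
  apply Subtype.ext
  exact redPt_injOn (model_at W₀ t₀) hΔ (mem_torsSub_of_mem_torsionBy W₀ hn P.2)
    (mem_torsSub_of_mem_torsionBy W₀ hn Q.2) (congrArg Subtype.val h)

/-- **The reduction map on torsion is Galois-equivariant.** -/
theorem redTors_galTors (n : ℕ) (hn : (n : L) ≠ 0) (σ : L ≃ₐ[k₀] L)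
    (P : Submodule.torsionBy ℤ (genCurve k₀ L W₀).toAffine.Point n) :
    redTors W₀ t₀ hΔ n hn (galTors W₀ σ n P) = σ • redTors W₀ t₀ hΔ n hn P := by
  apply Subtype.ext
  exact redPt_galPt W₀ t₀ hΔ σ
    (isInt_of_mem_torsSub (model_at W₀ t₀) (mem_torsSub_of_mem_torsionBy W₀ hn P.2))

end Points

end Fermat.Agent.S52P.RedAt
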