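/-
S52 (P) — the curve-independent core of (ISO-5): the switch through the generic fibre.

* `surjective_of_irreducible` — an injective additive map into an irreducible `E[p]` whose range
  is Galois-stable is surjective as soon as its source is nonzero;
* `exists_equivariant` — for a family `W₀` over `k₀[X]`: if the fibre at `t₀` has irreducible
  `p`-torsion and the generic fibre has a nonzero `p`-torsion point, there is an injective
  Galois-equivariant additive map `E_{t₀}[p] → E_{t₁}[p]` for every other good fibre `t₁`;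
* `exists_equivariant_of_variableChange` — the same over `ℚ`, transported to curves which are
  isomorphic over `ℚ` to the two fibres (`S05.Transfer.ratEquiv`).
-/
import Mathlib
import Fermat.Prelude.Def_FLTPrelim_GaloisRep
import Fermat.Agent.S52P.Iso.RedAt
import Fermat.Agent.S05.FreyTransfer

set_option autoImplicit false
set_option linter.unusedSectionVars false

namespace Fermat.Agent.S52P.Switch

open Polynomial WeierstrassCurve Fermat.Agent.S52P.RedAt
open scoped WeierstrassCurve.Affine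

section Generic

variable {R : Type*} {S : Type*} {K : Type*} [CommRing R] [CommRing S] [Field K]
  [DecidableEq K] {W' : Affine R} [Algebra R S] [Algebra R K] [Algebra S K]
  [IsScalarTower R S K]

/-- An injective additive map from a nonzero group into an irreducible `E[p]`, with
Galois-stable range, is surjective. -/
theorem surjective_of_irreducible {p : ℕ} [Fact p.Prime]
    (hirr : Affine.Point.GaloisRepIsIrreducible (K := K) S W' p)
    {T : Type*} [AddCommGroup T] (ψ : T →+ Submodule.torsionBy ℤ (W'⁄K).Point p)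
    (hinj : Function.Injective ψ)
    (hstab : ∀ (σ : K ≃ₐ[S] K) (x : T), ∃ y : T, ψ y = σ • ψ x)
    (x₀ : T) (hx₀ : x₀ ≠ 0) : Function.Surjective ψ := by
  have : NeZero p := ⟨(Fact.out : p.Prime).ne_zero⟩
  let N : Submodule (ZMod p) (Submodule.torsionBy ℤ (W'⁄K).Point p) :=
    { carrier := Set.range ψ
      add_mem' := by
        rintro _ _ ⟨a, rfl⟩ ⟨b, rfl⟩
        exact ⟨a + b, map_add ψ a b⟩
      zero_mem' := ⟨0, map_zero ψ⟩
      smul_mem' := by
        rintro c _ ⟨a, rfl⟩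
        refine ⟨c.val • a, ?_⟩
        rw [map_nsmul, ← Nat.cast_smul_eq_nsmul (ZMod p), ZMod.natCast_zmod_val] }
  have hN : Affine.Point.IsGaloisStable S N := by
    rintro σ _ ⟨a, rfl⟩
    obtain ⟨y, hy⟩ := hstab σ a
    exact ⟨y, hy⟩
  rcases hirr.2 N hN with h | h
  · exfalso
    have h1 : ψ x₀ ∈ N := ⟨x₀, rfl⟩
    rw [h, Submodule.mem_bot] at h1
    exact hx₀ (hinj (h1.trans (map_zero ψ).symm))
  · intro v
    have h1 : v ∈ N := by rw [h]; exact Submodule.mem_top
    exact h1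

end Generic

section Family

variable {k₀ : Type*} {L : Type*} [Field k₀] [Field L] [Algebra k₀ L] [DecidableEq L]
  [DecidableEq (RatFunc L)]

/-- **The switch, from surjectivity at `t₀`.** -/
theorem exists_equivariant_of_surjective (W₀ : WeierstrassCurve k₀[X]) {p : ℕ} (hp : (p : L) ≠ 0)
    (t₀ t₁ : k₀) (hΔ₀ : ((specCurve W₀ t₀).toAffine⁄L).Δ ≠ 0)
    (hΔ₁ : ((specCurve W₀ t₁).toAffine⁄L).Δ ≠ 0)
    (hsurj : Function.Surjective (redTors W₀ t₀ hΔ₀ p hp)) :
    ∃ φ : Submodule.torsionBy ℤ ((specCurve W₀ t₀).toAffine⁄L).Point p →+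
        Submodule.torsionBy ℤ ((specCurve W₀ t₁).toAffine⁄L).Point p,
      Function.Injective φ ∧ ∀ (σ : L ≃ₐ[k₀] L)
        (x : Submodule.torsionBy ℤ ((specCurve W₀ t₀).toAffine⁄L).Point p),
        φ (σ • x) = σ • φ x := by
  let e := AddEquiv.ofBijective (redTors W₀ t₀ hΔ₀ p hp) ⟨redTors_injective W₀ t₀ hΔ₀ p hp, hsurj⟩
  have he : ∀ P, e P = redTors W₀ t₀ hΔ₀ p hp P := fun P => rfl
  refine ⟨(redTors W₀ t₁ hΔ₁ p hp).comp e.symm.toAddMonoidHom, ?_, ?_⟩
  · exact (redTors_injective W₀ t₁ hΔ₁ p hp).comp e.symm.injective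
  · intro σ x
    obtain ⟨P, rfl⟩ := e.surjective x
    have h1 : σ • e P = e (galTors W₀ σ p P) := by
      rw [he, he, redTors_galTors]
    show redTors W₀ t₁ hΔ₁ p hp (e.symm (σ • e P)) = σ • redTors W₀ t₁ hΔ₁ p hp (e.symm (e P))
    rw [h1, AddEquiv.symm_apply_apply, AddEquiv.symm_apply_apply, redTors_galTors]

/-- **The switch through the generic fibre**: irreducible `p`-torsion at `t₀` and a nonzero
`p`-torsion point of the generic fibre give an injective equivariant map to every good fibre. -/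
theorem exists_equivariant (W₀ : WeierstrassCurve k₀[X]) {p : ℕ} [Fact p.Prime] (hp : (p : L) ≠ 0)
    (t₀ t₁ : k₀) (hΔ₀ : ((specCurve W₀ t₀).toAffine⁄L).Δ ≠ 0)
    (hΔ₁ : ((specCurve W₀ t₁).toAffine⁄L).Δ ≠ 0)
    (hirr : Affine.Point.GaloisRepIsIrreducible (K := L) k₀ (specCurve W₀ t₀).toAffine p)
    (P₀ : Submodule.torsionBy ℤ (genCurve k₀ L W₀).toAffine.Point p) (hP₀ : P₀ ≠ 0) :
    ∃ φ : Submodule.torsionBy ℤ ((specCurve W₀ t₀).toAffine⁄L).Point p →+
        Submodule.torsionBy ℤ ((specCurve W₀ t₁).toAffine⁄L).Point p,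
      Function.Injective φ ∧ ∀ (σ : L ≃ₐ[k₀] L)
        (x : Submodule.torsionBy ℤ ((specCurve W₀ t₀).toAffine⁄L).Point p),
        φ (σ • x) = σ • φ x := by
  refine exists_equivariant_of_surjective W₀ hp t₀ t₁ hΔ₀ hΔ₁ ?_
  refine surjective_of_irreducible hirr (redTors W₀ t₀ hΔ₀ p hp)
    (redTors_injective W₀ t₀ hΔ₀ p hp) ?_ P₀ hP₀
  intro σ x
  exact ⟨galTors W₀ σ p x, redTors_galTors W₀ t₀ hΔ₀ p hp σ x⟩

end Family

/-! ### Transport along rational changes of variables -/

section Rat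

/-- The restriction of an additive map to `n`-torsion. -/
def torsMap {M N : Type*} [AddCommGroup M] [AddCommGroup N] (f : M →+ N) (n : ℕ) :
    Submodule.torsionBy ℤ M n →+ Submodule.torsionBy ℤ N n where
  toFun x := ⟨f x.1, by
    rw [Submodule.mem_torsionBy_iff, ← map_zsmul, (Submodule.mem_torsionBy_iff _ _).mp x.2,
      map_zero]⟩
  map_zero' := Subtype.ext (map_zero f)
  map_add' x y := Subtype.ext (map_add f x.1 y.1)

theorem coe_torsMap {M N : Type*} [AddCommGroup M] [AddCommGroup N] (f : M →+ N) (n : ℕ)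
    (x : Submodule.torsionBy ℤ M n) : (torsMap f n x : N) = f x.1 := rfl

theorem torsMap_injective {M N : Type*} [AddCommGroup M] [AddCommGroup N] (f : M →+ N) (n : ℕ)
    (hf : Function.Injective f) : Function.Injective (torsMap f n) := fun _ _ h =>
  Subtype.ext (hf (congrArg Subtype.val h))

variable {L : Type*} [Field L] [Algebra ℚ L] [DecidableEq L] [DecidableEq (RatFunc L)]

theorem torsMap_ratEquiv_smul {W₁ W₂ : WeierstrassCurve ℚ} (C : VariableChange ℚ)
    (h : C • W₂ = W₁) (n : ℕ) (σ : L ≃ₐ[ℚ] L) (x : Submodule.torsionBy ℤ (W₁⁄L).Point n) :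
    torsMap (Fermat.Agent.S05.Transfer.ratEquiv (K := L) C h).toAddMonoidHom n (σ • x) =
      σ • torsMap (Fermat.Agent.S05.Transfer.ratEquiv (K := L) C h).toAddMonoidHom n x :=
  Subtype.ext (Fermat.Agent.S05.Transfer.ratEquiv_smul C h σ x.1)

theorem torsMap_ratEquiv_symm_smul {W₁ W₂ : WeierstrassCurve ℚ} (C : VariableChange ℚ)
    (h : C • W₂ = W₁) (n : ℕ) (σ : L ≃ₐ[ℚ] L) (x : Submodule.torsionBy ℤ (W₂⁄L).Point n) :
    torsMap (Fermat.Agent.S05.Transfer.ratEquiv (K := L) C h).symm.toAddMonoidHom n (σ • x) =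
      σ • torsMap (Fermat.Agent.S05.Transfer.ratEquiv (K := L) C h).symm.toAddMonoidHom n x := by
  apply Subtype.ext
  show (Fermat.Agent.S05.Transfer.ratEquiv (K := L) C h).symm (σ • x.1) =
    σ • (Fermat.Agent.S05.Transfer.ratEquiv (K := L) C h).symm x.1
  apply (Fermat.Agent.S05.Transfer.ratEquiv (K := L) C h).injective
  rw [AddEquiv.apply_symm_apply, Fermat.Agent.S05.Transfer.ratEquiv_smul,
    AddEquiv.apply_symm_apply]

/-- **The switch, for curves over `ℚ` isomorphic to two fibres of the family.**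
`E ≅ E_{t₀}` has irreducible `p`-torsion, the generic fibre has a nonzero `p`-torsion point:
then `E[p]` embeds Galois-equivariantly into `E'[p]` for every `E' ≅ E_{t₁}`. -/
theorem exists_equivariant_of_variableChange (W₀ : WeierstrassCurve ℚ[X]) {p : ℕ} [Fact p.Prime]
    (hp : (p : L) ≠ 0) (t₀ t₁ : ℚ) (E E' : WeierstrassCurve ℚ)
    (C₀ : VariableChange ℚ) (h₀ : C₀ • E = specCurve W₀ t₀)
    (C₁ : VariableChange ℚ) (h₁ : C₁ • E' = specCurve W₀ t₁)
    (hΔ₀ : ((specCurve W₀ t₀).toAffine⁄L).Δ ≠ 0) (hΔ₁ : ((specCurve W₀ t₁).toAffine⁄L).Δ ≠ 0)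
    (hirr : Affine.Point.GaloisRepIsIrreducible (K := L) ℚ E.toAffine p)
    (P₀ : Submodule.torsionBy ℤ (genCurve ℚ L W₀).toAffine.Point p) (hP₀ : P₀ ≠ 0) :
    ∃ φ : Submodule.torsionBy ℤ (E.toAffine⁄L).Point p →+
        Submodule.torsionBy ℤ (E'.toAffine⁄L).Point p,
      Function.Injective φ ∧ ∀ (σ : L ≃ₐ[ℚ] L)
        (x : Submodule.torsionBy ℤ (E.toAffine⁄L).Point p), φ (σ • x) = σ • φ x := by
  let e₀ := Fermat.Agent.S05.Transfer.ratEquiv (K := L) C₀ h₀
  let e₁ := Fermat.Agent.S05.Transfer.ratEquiv (K := L) C₁ h₁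
  -- surjectivity of the reduction at `t₀`
  have hsurj : Function.Surjective (redTors W₀ t₀ hΔ₀ p hp) := by
    have h1 : Function.Surjective
        ((torsMap e₀.toAddMonoidHom p).comp (redTors W₀ t₀ hΔ₀ p hp)) := by
      refine surjective_of_irreducible hirr _
        ((torsMap_injective _ p e₀.injective).comp (redTors_injective W₀ t₀ hΔ₀ p hp)) ?_ P₀ hP₀
      intro σ x
      refine ⟨galTors W₀ σ p x, ?_⟩
      show torsMap e₀.toAddMonoidHom p (redTors W₀ t₀ hΔ₀ p hp (galTors W₀ σ p x)) =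
        σ • torsMap e₀.toAddMonoidHom p (redTors W₀ t₀ hΔ₀ p hp x)
      rw [redTors_galTors, torsMap_ratEquiv_smul]
    intro v
    obtain ⟨P, hP⟩ := h1 (torsMap e₀.toAddMonoidHom p v)
    exact ⟨P, torsMap_injective _ p e₀.injective hP⟩
  obtain ⟨φ₀, hφ₀, hφ₀σ⟩ := exists_equivariant_of_surjective W₀ hp t₀ t₁ hΔ₀ hΔ₁ hsurj
  refine ⟨((torsMap e₁.toAddMonoidHom p).comp φ₀).comp (torsMap e₀.symm.toAddMonoidHom p), ?_, ?_⟩
  · exact ((torsMap_injective _ p e₁.injective).comp hφ₀).comp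
      (torsMap_injective _ p e₀.symm.injective)
  · intro σ x
    show torsMap e₁.toAddMonoidHom p (φ₀ (torsMap e₀.symm.toAddMonoidHom p (σ • x))) =
      σ • torsMap e₁.toAddMonoidHom p (φ₀ (torsMap e₀.symm.toAddMonoidHom p x))
    rw [torsMap_ratEquiv_symm_smul, hφ₀σ, torsMap_ratEquiv_smul]

end Rat

end Fermat.Agent.S52P.Switch
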