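/-
S52 (P) — the (ISO) spine in Klein-free form, for a family of SHORT Weierstrass curves
`y² = x³ + A₄(t) x + A₆(t)` with `A₄, A₆ ∈ ℚ[t]`.

`exists_equivariant_of_short`: if `W` (irreducible `5`-torsion) is `ℚ`-isomorphic to the fibre at
`t₀`, `W'` is `ℚ`-isomorphic to the fibre at `t₁` (both expressed through `c₄`, `c₆`), and the
generic fibre over `RatFunc Qb` has a nonzero `5`-torsion point, then there is an injective
Galois-equivariant additive map `W[5] → W'[5]` — the literal conclusion of (ISO).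
-/
import Mathlib
import Fermat.Agent.S52P.Iso.Switch
import Fermat.Agent.S58.Interfaces

set_option autoImplicit false

namespace Fermat.Agent.S52P.Short

open Polynomial WeierstrassCurve Fermat.Agent.S52P.RedAt Fermat.Agent.S58
open scoped WeierstrassCurve.Affine

/-- The change of variables taking a curve over `ℚ` to a short model, with scaling `u`. -/
noncomputable def toShortVC (E : WeierstrassCurve ℚ) (u : ℚˣ) : VariableChange ℚ :=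
  ⟨u, -E.b₂ / 12, -E.a₁ / 2, -(E.a₃ + -E.b₂ / 12 * E.a₁) / 2⟩

theorem toShortVC_smul (E : WeierstrassCurve ℚ) (u : ℚˣ) :
    toShortVC E u • E =
      ⟨0, 0, 0, -E.c₄ / (48 * (u : ℚ) ^ 4), -E.c₆ / (864 * (u : ℚ) ^ 6)⟩ := by
  have hu : (u : ℚ) ≠ 0 := u.ne_zero
  have hinv : ((u⁻¹ : ℚˣ) : ℚ) = (u : ℚ)⁻¹ := Units.val_inv_eq_inv_val u
  ext
  · rw [variableChange_a₁]
    simp only [toShortVC]
    ring
  · rw [variableChange_a₂]
    simp only [toShortVC, b₂]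
    ring
  · rw [variableChange_a₃]
    simp only [toShortVC]
    ring
  · rw [variableChange_a₄]
    simp only [toShortVC, c₄, b₂, b₄]
    rw [hinv]
    field_simp
    ring
  · rw [variableChange_a₆]
    simp only [toShortVC, c₆, b₂, b₄, b₆]
    rw [hinv]
    field_simp
    ring

/-- The short family over `ℚ[X]`. -/
noncomputable def shortFam (A₄ A₆ : ℚ[X]) : WeierstrassCurve ℚ[X] := ⟨0, 0, 0, A₄, A₆⟩

theorem specCurve_shortFam (A₄ A₆ : ℚ[X]) (t : ℚ) :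
    specCurve (shortFam A₄ A₆) t = ⟨0, 0, 0, A₄.eval t, A₆.eval t⟩ := by
  ext <;> simp [specCurve, shortFam]

theorem genCurve_shortFam (L : Type*) [Field L] [Algebra ℚ L] (A₄ A₆ : ℚ[X]) :
    genCurve ℚ L (shortFam A₄ A₆) = ⟨0, 0, 0, toGen ℚ L A₄, toGen ℚ L A₆⟩ := by
  ext <;> simp [genCurve, shortFam]

/-- A curve over `ℚ` whose `c₄`, `c₆` match those of a fibre of the short family (up to the
scaling `u`) is isomorphic to it by a rational change of variables. -/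
theorem exists_vc (E : WeierstrassCurve ℚ) (A₄ A₆ : ℚ[X]) (t u : ℚ) (hu : u ≠ 0)
    (h4 : E.c₄ = -48 * u ^ 4 * A₄.eval t) (h6 : E.c₆ = -864 * u ^ 6 * A₆.eval t) :
    ∃ C : VariableChange ℚ, C • E = specCurve (shortFam A₄ A₆) t ∧
      (specCurve (shortFam A₄ A₆) t).Δ = (u⁻¹) ^ 12 * E.Δ := by
  refine ⟨toShortVC E (Units.mk0 u hu), ?_, ?_⟩
  · rw [toShortVC_smul, specCurve_shortFam, Units.val_mk0, h4, h6]
    congr 1 <;> field_simp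
  · have h := toShortVC_smul E (Units.mk0 u hu)
    rw [Units.val_mk0, h4, h6] at h
    have h2 : specCurve (shortFam A₄ A₆) t = toShortVC E (Units.mk0 u hu) • E := by
      rw [h, specCurve_shortFam]
      congr 1 <;> field_simp
    rw [h2, variableChange_Δ]
    simp [toShortVC]

/-- **(ISO), Klein-free form.**  `W` (with irreducible `5`-torsion) and `W'` are, up to scalings
`u₀`, `u₁`, the fibres at `t₀`, `t₁` of the short family `y² = x³ + A₄ x + A₆` over `ℚ[t]`, whose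
generic fibre over `RatFunc Qb` has a nonzero `5`-torsion point.  Then `W[5]` embeds
Galois-equivariantly into `W'[5]`. -/
theorem exists_equivariant_of_short [DecidableEq (RatFunc Qb)]
    (W W' : WeierstrassCurve ℤ) (hΔ : W.Δ ≠ 0) (hΔ' : W'.Δ ≠ 0) (h5 : W.ModRepIsIrreducible 5)
    (A₄ A₆ : ℚ[X]) (t₀ t₁ u₀ u₁ : ℚ) (hu₀ : u₀ ≠ 0) (hu₁ : u₁ ≠ 0)
    (h04 : (W.c₄ : ℚ) = -48 * u₀ ^ 4 * A₄.eval t₀)
    (h06 : (W.c₆ : ℚ) = -864 * u₀ ^ 6 * A₆.eval t₀)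
    (h14 : (W'.c₄ : ℚ) = -48 * u₁ ^ 4 * A₄.eval t₁)
    (h16 : (W'.c₆ : ℚ) = -864 * u₁ ^ 6 * A₆.eval t₁)
    (hpt : ∃ P : (genCurve ℚ Qb (shortFam A₄ A₆)).toAffine.Point, P ≠ 0 ∧ (5 : ℤ) • P = 0) :
    ∃ φ : Submodule.torsionBy ℤ (EPt W) (5 : ℕ) →+ Submodule.torsionBy ℤ (EPt W') (5 : ℕ),
      Function.Injective φ ∧
        ∀ (σ : GQ) (x : Submodule.torsionBy ℤ (EPt W) (5 : ℕ)), φ (σ • x) = σ • φ x := by
  have : Fact (Nat.Prime 5) := ⟨by norm_num⟩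
  have hc4 : (EQ W).c₄ = (W.c₄ : ℚ) := by simp [EQ]
  have hc6 : (EQ W).c₆ = (W.c₆ : ℚ) := by simp [EQ]
  have hc4' : (EQ W').c₄ = (W'.c₄ : ℚ) := by simp [EQ]
  have hc6' : (EQ W').c₆ = (W'.c₆ : ℚ) := by simp [EQ]
  have hD : (EQ W).Δ ≠ 0 := by
    have h : (EQ W).Δ = (W.Δ : ℚ) := by simp [EQ]
    rw [h]
    exact_mod_cast hΔ
  have hD' : (EQ W').Δ ≠ 0 := by
    have h : (EQ W').Δ = (W'.Δ : ℚ) := by simp [EQ]
    rw [h]
    exact_mod_cast hΔ'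
  obtain ⟨C₀, hC₀, hD₀⟩ := exists_vc (EQ W) A₄ A₆ t₀ u₀ hu₀ (hc4.trans h04) (hc6.trans h06)
  obtain ⟨C₁, hC₁, hD₁⟩ := exists_vc (EQ W') A₄ A₆ t₁ u₁ hu₁ (hc4'.trans h14) (hc6'.trans h16)
  have hΔ₀ : ((specCurve (shortFam A₄ A₆) t₀).toAffine⁄Qb).Δ ≠ 0 := by
    show ((specCurve (shortFam A₄ A₆) t₀).map (algebraMap ℚ Qb)).Δ ≠ 0
    rw [map_Δ, hD₀]
    exact (map_ne_zero (algebraMap ℚ Qb)).mpr (mul_ne_zero (pow_ne_zero _ (inv_ne_zero hu₀)) hD)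
  have hΔ₁ : ((specCurve (shortFam A₄ A₆) t₁).toAffine⁄Qb).Δ ≠ 0 := by
    show ((specCurve (shortFam A₄ A₆) t₁).map (algebraMap ℚ Qb)).Δ ≠ 0
    rw [map_Δ, hD₁]
    exact (map_ne_zero (algebraMap ℚ Qb)).mpr (mul_ne_zero (pow_ne_zero _ (inv_ne_zero hu₁)) hD')
  obtain ⟨P, hP0, hP5⟩ := hpt
  have hP : P ∈ Submodule.torsionBy ℤ (genCurve ℚ Qb (shortFam A₄ A₆)).toAffine.Point (5 : ℕ) := by
    rw [Submodule.mem_torsionBy_iff]
    exact_mod_cast hP5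
  exact Switch.exists_equivariant_of_variableChange (L := Qb) (shortFam A₄ A₆) (p := 5)
    (by norm_num) t₀ t₁ (EQ W) (EQ W') C₀ hC₀ C₁ hC₁ hΔ₀ hΔ₁ h5 ⟨P, hP⟩
    (fun h => hP0 (congrArg Subtype.val h))

/-- The same, with the generic fibre written out as `y² = x³ + toGen A₄ · x + toGen A₆`. -/
theorem exists_equivariant_of_short' [DecidableEq (RatFunc Qb)]
    (W W' : WeierstrassCurve ℤ) (hΔ : W.Δ ≠ 0) (hΔ' : W'.Δ ≠ 0) (h5 : W.ModRepIsIrreducible 5)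
    (A₄ A₆ : ℚ[X]) (t₀ t₁ u₀ u₁ : ℚ) (hu₀ : u₀ ≠ 0) (hu₁ : u₁ ≠ 0)
    (h04 : (W.c₄ : ℚ) = -48 * u₀ ^ 4 * A₄.eval t₀)
    (h06 : (W.c₆ : ℚ) = -864 * u₀ ^ 6 * A₆.eval t₀)
    (h14 : (W'.c₄ : ℚ) = -48 * u₁ ^ 4 * A₄.eval t₁)
    (h16 : (W'.c₆ : ℚ) = -864 * u₁ ^ 6 * A₆.eval t₁)
    (hpt : ∃ P : (⟨0, 0, 0, toGen ℚ Qb A₄, toGen ℚ Qb A₆⟩ :
      WeierstrassCurve (RatFunc Qb)).toAffine.Point, P ≠ 0 ∧ (5 : ℤ) • P = 0) :
    ∃ φ : Submodule.torsionBy ℤ (EPt W) (5 : ℕ) →+ Submodule.torsionBy ℤ (EPt W') (5 : ℕ),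
      Function.Injective φ ∧
        ∀ (σ : GQ) (x : Submodule.torsionBy ℤ (EPt W) (5 : ℕ)), φ (σ • x) = σ • φ x := by
  refine exists_equivariant_of_short W W' hΔ hΔ' h5 A₄ A₆ t₀ t₁ u₀ u₁ hu₀ hu₁ h04 h06 h14 h16 ?_
  rw [genCurve_shortFam]
  exact hpt

end Fermat.Agent.S52P.Short
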