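/-
S52 (P) — (ISO): the Klein instance of the spine `Short.exists_equivariant_of_short'`.

For `W'` with `c₄(W') = famH c₄ c₆ m n`, `c₆(W') = famT c₄ c₆ m n` (`m ≠ 0`) and `W[5]`
irreducible there is an injective Galois-equivariant additive map `W[5] → W'[5]`.

Inputs: `Klein.famH_eq`, `famT_eq`, `map_famH`, `map_famT`, `famH_zero`, `famT_zero` (helper23),
`Base49.exists_base_explicit` (helper49), `PointInst3.exists_point` (helper3).
The last theorem `iso` is the interface statement `ISO` of `S52P/Seam.lean`.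
-/
import Mathlib
import Fermat.Agent.S52P.Iso.Short
import Fermat.Agent.S52P.Klein.FamT
import Fermat.Agent.S52P.Base49
import Fermat.Agent.S52P.Iso.PointInst3
import Fermat.Agent.S52P.Seam

set_option autoImplicit false

namespace Fermat.Agent.S52P.Inst61

open Polynomial WeierstrassCurve Fermat.Agent.S52P.RedAt Fermat.Agent.S58
  Fermat.Agent.S52P.Klein Fermat.Agent.S52P.Short Fermat.Agent.S52P.Iso
open scoped WeierstrassCurve.Affine

/-! ### Homogeneity of the family -/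

theorem famH_homog {F : Type*} [Field F] (e h m n : F) (hm : m ≠ 0) :
    famH e h m n = m ^ 20 * famH e h 1 (n / m) := by
  unfold famH
  field_simp

theorem famT_homog {F : Type*} [Field F] (e h m n : F) (hm : m ≠ 0) :
    famT e h m n = m ^ 30 * famT e h 1 (n / m) := by
  unfold famT
  field_simp

/-! ### The generic discriminant -/

theorem genCurve_Δ_ne_zero {k₀ : Type*} {L : Type*} [Field k₀] [Field L] [Algebra k₀ L]
    (W₀ : WeierstrassCurve k₀[X]) (t₀ : k₀) (h : (specCurve W₀ t₀).Δ ≠ 0) :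
    (genCurve k₀ L W₀).Δ ≠ 0 := by
  have h1 : W₀.Δ ≠ 0 := by
    intro h0
    apply h
    rw [specCurve, map_Δ, h0, map_zero]
  rw [genCurve, map_Δ, toGen_apply]
  intro h0
  have h2 : (W₀.Δ).map (algebraMap k₀ L) = 0 :=
    RatFunc.algebraMap_injective L (h0.trans (map_zero _).symm)
  exact h1 ((Polynomial.map_eq_zero_iff (algebraMap k₀ L).injective).mp h2)

/-! ### The polynomial coefficients of the family -/

/-- `a₄` of the family `y² = x³ − 16875·famH(c₄, c₆, 1, t)·x − 843750·famT(c₄, c₆, 1, t)`. -/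
noncomputable def polyA₄ (c₄ c₆ : ℚ) : ℚ[X] := C (-16875) * famH (C c₄) (C c₆) 1 X

/-- `a₆` of the family. -/
noncomputable def polyA₆ (c₄ c₆ : ℚ) : ℚ[X] := C (-843750) * famT (C c₄) (C c₆) 1 X

theorem eval_polyA₄ (c₄ c₆ t : ℚ) : (polyA₄ c₄ c₆).eval t = -16875 * famH c₄ c₆ 1 t := by
  have h := map_famH (evalRingHom t) (C c₄) (C c₆) 1 X
  simp only [coe_evalRingHom, eval_C, eval_one, eval_X] at h
  rw [polyA₄, eval_mul, eval_C, h]

theorem eval_polyA₆ (c₄ c₆ t : ℚ) : (polyA₆ c₄ c₆).eval t = -843750 * famT c₄ c₆ 1 t := by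
  have h := map_famT (evalRingHom t) (C c₄) (C c₆) 1 X
  simp only [coe_evalRingHom, eval_C, eval_one, eval_X] at h
  rw [polyA₆, eval_mul, eval_C, h]

theorem toGen_C (a : ℚ) : toGen ℚ Qb (C a) = RatFunc.C (algebraMap ℚ Qb a) := by
  rw [toGen_apply, Polynomial.map_C, RatFunc.algebraMap_C]

theorem toGen_X : toGen ℚ Qb (X : ℚ[X]) = RatFunc.X := by
  rw [toGen_apply, Polynomial.map_X, RatFunc.algebraMap_X]

theorem toGen_polyA₄ (c₄ c₆ : ℚ) :
    toGen ℚ Qb (polyA₄ c₄ c₆) =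
      -16875 * famH (RatFunc.C (algebraMap ℚ Qb c₄)) (RatFunc.C (algebraMap ℚ Qb c₆)) 1
        RatFunc.X := by
  rw [polyA₄, map_mul, map_famH, toGen_C, toGen_C, toGen_C, toGen_X, map_one]
  congr 1
  rw [map_neg, map_neg, map_ofNat, map_ofNat]

theorem toGen_polyA₆ (c₄ c₆ : ℚ) :
    toGen ℚ Qb (polyA₆ c₄ c₆) =
      -843750 * famT (RatFunc.C (algebraMap ℚ Qb c₄)) (RatFunc.C (algebraMap ℚ Qb c₆)) 1
        RatFunc.X := by
  rw [polyA₆, map_mul, map_famT, toGen_C, toGen_C, toGen_C, toGen_X, map_one]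
  congr 1
  rw [map_neg, map_neg, map_ofNat, map_ofNat]

/-! ### The instance -/

/-- **(ISO)** of the S52 (P) design. -/
theorem exists_equivariant (W : WeierstrassCurve ℤ) (hΔ : W.Δ ≠ 0) (h4 : W.c₄ ≠ 0)
    (h6 : W.c₆ ≠ 0) (h5 : W.ModRepIsIrreducible 5) (W' : WeierstrassCurve ℤ) (hΔ' : W'.Δ ≠ 0)
    (m n : ℤ) (hm : m ≠ 0) (h4' : W'.c₄ = famH W.c₄ W.c₆ m n)
    (h6' : W'.c₆ = famT W.c₄ W.c₆ m n) :
    ∃ φ : Submodule.torsionBy ℤ (EPt W) (5 : ℕ) →+ Submodule.torsionBy ℤ (EPt W') (5 : ℕ),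
      Function.Injective φ ∧
        ∀ (σ : GQ) (x : Submodule.torsionBy ℤ (EPt W) (5 : ℕ)), φ (σ • x) = σ • φ x := by
  classical
  have hmQ : (m : ℚ) ≠ 0 := by exact_mod_cast hm
  -- the four `c`-invariant identities
  have h04 : (W.c₄ : ℚ) = -48 * (1 / 30 : ℚ) ^ 4 * (polyA₄ W.c₄ W.c₆).eval 0 := by
    rw [eval_polyA₄, famH_zero]
    ring
  have h06 : (W.c₆ : ℚ) = -864 * (1 / 30 : ℚ) ^ 6 * (polyA₆ W.c₄ W.c₆).eval 0 := by
    rw [eval_polyA₆, famT_zero]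
    ring
  have h14 : (W'.c₄ : ℚ) =
      -48 * ((m : ℚ) ^ 5 / 30) ^ 4 * (polyA₄ W.c₄ W.c₆).eval ((n : ℚ) / m) := by
    have h := map_famH (Int.castRingHom ℚ) W.c₄ W.c₆ m n
    simp only [eq_intCast] at h
    rw [eval_polyA₄, h4', h, famH_homog _ _ _ _ hmQ]
    ring
  have h16 : (W'.c₆ : ℚ) =
      -864 * ((m : ℚ) ^ 5 / 30) ^ 6 * (polyA₆ W.c₄ W.c₆).eval ((n : ℚ) / m) := by
    have h := map_famT (Int.castRingHom ℚ) W.c₄ W.c₆ m n
    simp only [eq_intCast] at h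
    rw [eval_polyA₆, h6', h, famT_homog _ _ _ _ hmQ]
    ring
  -- the generic discriminant
  have hc4 : (EQ W).c₄ = (W.c₄ : ℚ) := by simp [EQ]
  have hc6 : (EQ W).c₆ = (W.c₆ : ℚ) := by simp [EQ]
  have hD : (EQ W).Δ ≠ 0 := by
    have h : (EQ W).Δ = (W.Δ : ℚ) := by simp [EQ]
    rw [h]
    exact_mod_cast hΔ
  have hΔgen : (genCurve ℚ Qb (shortFam (polyA₄ W.c₄ W.c₆) (polyA₆ W.c₄ W.c₆))).Δ ≠ 0 := by
    obtain ⟨-, -, hD₀⟩ := exists_vc (EQ W) (polyA₄ W.c₄ W.c₆) (polyA₆ W.c₄ W.c₆) 0 (1 / 30)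
      (by norm_num) (hc4.trans h04) (hc6.trans h06)
    refine genCurve_Δ_ne_zero _ 0 ?_
    rw [hD₀]
    exact mul_ne_zero (pow_ne_zero _ (inv_ne_zero (by norm_num))) hD
  -- the nonzero `5`-torsion point of the generic fibre
  have hpt : ∃ P : (⟨0, 0, 0, toGen ℚ Qb (polyA₄ W.c₄ W.c₆), toGen ℚ Qb (polyA₆ W.c₄ W.c₆)⟩ :
      WeierstrassCurve (RatFunc Qb)).toAffine.Point, P ≠ 0 ∧ (5 : ℤ) • P = 0 := by
    have h4Q : algebraMap ℚ Qb (W.c₄ : ℚ) ≠ 0 :=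
      (map_ne_zero (algebraMap ℚ Qb)).mpr (by exact_mod_cast h4)
    have h6Q : algebraMap ℚ Qb (W.c₆ : ℚ) ≠ 0 :=
      (map_ne_zero (algebraMap ℚ Qb)).mpr (by exact_mod_cast h6)
    have hd : algebraMap ℚ Qb (W.c₄ : ℚ) ^ 3 ≠ algebraMap ℚ Qb (W.c₆ : ℚ) ^ 2 := by
      rw [← map_pow, ← map_pow]
      intro h
      have h1 : ((W.c₄ : ℚ)) ^ 3 = (W.c₆ : ℚ) ^ 2 := (algebraMap ℚ Qb).injective h
      have h2 : W.c₄ ^ 3 = W.c₆ ^ 2 := by exact_mod_cast h1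
      have h3 := W.c_relation
      apply hΔ
      have h4 : (1728 : ℤ) * W.Δ = 0 := by rw [h3, h2]; ring
      exact (mul_eq_zero.mp h4).resolve_left (by norm_num)
    obtain ⟨x₀, y₀, he, ht⟩ := Base49.exists_base_explicit (algebraMap ℚ Qb (W.c₄ : ℚ))
      (algebraMap ℚ Qb (W.c₆ : ℚ)) h4Q h6Q hd
    have he' : eta (x₀ ^ 5) (y₀ ^ 5) = algebraMap ℚ Qb (W.c₄ : ℚ) := he
    have ht' : theta (x₀ ^ 5) (y₀ ^ 5) = algebraMap ℚ Qb (W.c₆ : ℚ) := ht
    obtain ⟨s, hs⟩ := IsAlgClosed.exists_pow_nat_eq (5 : Qb) (n := 2) (by norm_num)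
    obtain ⟨ρ₀, hρ₀⟩ := IsAlgClosed.exists_pow_nat_eq (18 - 11 * ((1 + s) / 2) : Qb) (n := 2)
      (by norm_num)
    have hg₀ : ((1 + s) / 2 : Qb) ^ 2 = (1 + s) / 2 + 1 := by
      field_simp
      linear_combination hs
    set XX : RatFunc Qb := RatFunc.C (x₀ ^ 5) with hXX
    set YY : RatFunc Qb := RatFunc.C (y₀ ^ 5) with hYY
    set Xt : RatFunc Qb := XX * (1 + RatFunc.X * kA XX YY) ^ 5 with hXt
    set Yt : RatFunc Qb := YY * (1 - RatFunc.X * kB XX YY) ^ 5 with hYt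
    have hXXYY_eta : eta XX YY = RatFunc.C (algebraMap ℚ Qb (W.c₄ : ℚ)) := by
      rw [hXX, hYY, ← map_eta (RatFunc.C : Qb →+* RatFunc Qb), he']
    have hXXYY_theta : theta XX YY = RatFunc.C (algebraMap ℚ Qb (W.c₆ : ℚ)) := by
      rw [hXX, hYY, ← map_theta (RatFunc.C : Qb →+* RatFunc Qb), ht']
    have heta : eta Xt Yt = famH (RatFunc.C (algebraMap ℚ Qb (W.c₄ : ℚ)))
        (RatFunc.C (algebraMap ℚ Qb (W.c₆ : ℚ))) 1 RatFunc.X := by
      rw [hXt, hYt, famH_eq XX YY 1 RatFunc.X, hXXYY_eta, hXXYY_theta]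
    have htheta : theta Xt Yt = famT (RatFunc.C (algebraMap ℚ Qb (W.c₄ : ℚ)))
        (RatFunc.C (algebraMap ℚ Qb (W.c₆ : ℚ))) 1 RatFunc.X := by
      rw [hXt, hYt, famT_eq XX YY 1 RatFunc.X, hXXYY_eta, hXXYY_theta]
    have hcurve : (⟨0, 0, 0, toGen ℚ Qb (polyA₄ W.c₄ W.c₆), toGen ℚ Qb (polyA₆ W.c₄ W.c₆)⟩ :
        WeierstrassCurve (RatFunc Qb)) =
          PointInst3.shortE (PointData3.eta Xt Yt) (PointData3.theta Xt Yt) := by
      rw [toGen_polyA₄, toGen_polyA₆, ← heta, ← htheta]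
      rfl
    have hΔ' : (PointInst3.shortE (PointData3.eta Xt Yt) (PointData3.theta Xt Yt)).Δ ≠ 0 := by
      rw [← hcurve, ← genCurve_shortFam]
      exact hΔgen
    rw [hcurve]
    obtain ⟨P, hP0, hP5, -⟩ := PointInst3.exists_point (RatFunc.C ((1 + s) / 2 : Qb))
      (RatFunc.C ρ₀) Xt Yt
      (by rw [← map_pow, hg₀, map_add, map_one])
      (by
        rw [← map_pow, hρ₀]
        simp only [map_sub, map_mul, map_div₀, map_add, map_one, map_ofNat])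
      hΔ'
    exact ⟨P, hP0, hP5⟩
  exact exists_equivariant_of_short' W W' hΔ hΔ' h5 (polyA₄ W.c₄ W.c₆) (polyA₆ W.c₄ W.c₆) 0
    ((n : ℚ) / m) (1 / 30) ((m : ℚ) ^ 5 / 30) (by norm_num)
    (div_ne_zero (pow_ne_zero 5 hmQ) (by norm_num)) h04 h06 h14 h16 hpt

/-- **(ISO)** in the literal form of the top seam `S52P/Seam.lean`. -/
theorem iso : Fermat.Agent.S52P.ISO :=
  fun W hΔ h4 h6 h5 W' hΔ' m n hm h4' h6' =>
    exists_equivariant W hΔ h4 h6 h5 W' hΔ' m n hm h4' h6'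

end Fermat.Agent.S52P.Inst61
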