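/-
S52 / project (P), brick (ISO-3 POINT) — helper3.

A point of exact order `5` on a short Weierstrass curve `y² = x³ + a₄ x + a₆` over a field,
from a solution `(x, y)` of the curve equation at which the fifth division polynomial
`preΨ₅ = preΨ₄ Ψ₂Sq² - Ψ₃³` vanishes.  Klein-free: the instance at the generic fibre of the
icosahedral family is a wrapper on top of this file.
-/
import Mathlib
import Fermat.Agent.Lib.ECTors.MulFormula

set_option autoImplicit false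

namespace Fermat.Agent.S52P.Iso.Point3

open WeierstrassCurve Polynomial

variable {K : Type*}

/-- The short Weierstrass curve `y² = x³ + a₄ x + a₆`. -/
def shortW [CommRing K] (a₄ a₆ : K) : WeierstrassCurve K := ⟨0, 0, 0, a₄, a₆⟩

@[simp] theorem shortW_a₁ [CommRing K] (a₄ a₆ : K) : (shortW a₄ a₆).a₁ = 0 := rfl
@[simp] theorem shortW_a₂ [CommRing K] (a₄ a₆ : K) : (shortW a₄ a₆).a₂ = 0 := rfl
@[simp] theorem shortW_a₃ [CommRing K] (a₄ a₆ : K) : (shortW a₄ a₆).a₃ = 0 := rfl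
@[simp] theorem shortW_a₄ [CommRing K] (a₄ a₆ : K) : (shortW a₄ a₆).a₄ = a₄ := rfl
@[simp] theorem shortW_a₆ [CommRing K] (a₄ a₆ : K) : (shortW a₄ a₆).a₆ = a₆ := rfl

theorem shortW_c₄ [CommRing K] (a₄ a₆ : K) : (shortW a₄ a₆).c₄ = -48 * a₄ := by
  simp [WeierstrassCurve.c₄, WeierstrassCurve.b₂, WeierstrassCurve.b₄]
  ring

theorem shortW_c₆ [CommRing K] (a₄ a₆ : K) : (shortW a₄ a₆).c₆ = -864 * a₆ := by
  simp [WeierstrassCurve.c₆, WeierstrassCurve.b₂, WeierstrassCurve.b₄, WeierstrassCurve.b₆]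
  ring

theorem shortW_Δ [CommRing K] (a₄ a₆ : K) :
    (shortW a₄ a₆).Δ = -16 * (4 * a₄ ^ 3 + 27 * a₆ ^ 2) := by
  simp [WeierstrassCurve.Δ, WeierstrassCurve.b₂, WeierstrassCurve.b₄, WeierstrassCurve.b₆,
    WeierstrassCurve.b₈]
  ring

/-- The value at `x` of the fifth division polynomial `preΨ₄ Ψ₂Sq² - Ψ₃³` of
`y² = x³ + a₄ x + a₆`, written out. -/
def psi5v [CommRing K] (x a₄ a₆ : K) : K :=
  (2 * x ^ 6 + 10 * a₄ * x ^ 4 + 40 * a₆ * x ^ 3 - 10 * a₄ ^ 2 * x ^ 2 - 8 * a₄ * a₆ * x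
      - 2 * a₄ ^ 3 - 16 * a₆ ^ 2) * (4 * x ^ 3 + 4 * a₄ * x + 4 * a₆) ^ 2
    - (3 * x ^ 4 + 6 * a₄ * x ^ 2 + 12 * a₆ * x - a₄ ^ 2) ^ 3

/-- Mathlib's `preΨ 5` of the short curve, evaluated. -/
theorem preΨ_five_eval [CommRing K] (a₄ a₆ x : K) :
    ((shortW a₄ a₆).preΨ 5).eval x = psi5v x a₄ a₆ := by
  have h : ((shortW a₄ a₆).preΨ 5) = (shortW a₄ a₆).preΨ' (2 * (0 + 2) + 1) :=
    (shortW a₄ a₆).preΨ_ofNat 5
  rw [h, preΨ'_odd]
  simp only [zero_add, preΨ'_four, preΨ'_two, one_pow, mul_one, preΨ'_one,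
    preΨ'_three, one_mul, Even.zero, if_true, eval_sub, eval_mul, eval_pow]
  simp only [WeierstrassCurve.Ψ₂Sq, WeierstrassCurve.Ψ₃, WeierstrassCurve.preΨ₄,
    WeierstrassCurve.b₂, WeierstrassCurve.b₄, WeierstrassCurve.b₆, WeierstrassCurve.b₈,
    shortW_a₁, shortW_a₂, shortW_a₃, shortW_a₄, shortW_a₆, psi5v]
  simp only [eval_add, eval_mul, eval_pow, eval_C, eval_X, eval_ofNat]
  ring

variable [Field K]

/-- A solution of the curve equation is a nonsingular point when `Δ ≠ 0`. -/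
theorem nonsingular_of_eq (a₄ a₆ x y : K) (hΔ : (shortW a₄ a₆).Δ ≠ 0)
    (hxy : y ^ 2 = x ^ 3 + a₄ * x + a₆) : (shortW a₄ a₆).toAffine.Nonsingular x y := by
  refine (Affine.equation_iff_nonsingular_of_Δ_ne_zero hΔ).1 ?_
  rw [Affine.equation_iff]
  simp only [shortW_a₁, shortW_a₂, shortW_a₃, shortW_a₄, shortW_a₆]
  linear_combination hxy

variable [DecidableEq K]

/-- **(ISO-3), Klein-free core.**  A solution `(x, y)` of `y² = x³ + a₄ x + a₆` (with `Δ ≠ 0`)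
at which the fifth division polynomial vanishes is a point of exact order `5`. -/
theorem five_zsmul_eq_zero (a₄ a₆ x y : K) (hΔ : (shortW a₄ a₆).Δ ≠ 0)
    (hxy : y ^ 2 = x ^ 3 + a₄ * x + a₆) (h5 : psi5v x a₄ a₆ = 0) :
    (5 : ℤ) • Affine.Point.some x y (nonsingular_of_eq a₄ a₆ x y hΔ hxy) = 0 := by
  rw [Fermat.Agent.Lib.ECTors.zsmul_eq_zero_iff_preΨ_of_odd _ _ (by decide), preΨ_five_eval, h5]

/-- **(ISO-3), existence form.** -/
theorem exists_point_of_psi5 (a₄ a₆ x y : K) (hΔ : (shortW a₄ a₆).Δ ≠ 0)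
    (hxy : y ^ 2 = x ^ 3 + a₄ * x + a₆) (h5 : psi5v x a₄ a₆ = 0) :
    ∃ P : (shortW a₄ a₆).toAffine.Point, P ≠ 0 ∧ (5 : ℤ) • P = 0 ∧ (5 : ℕ) • P = 0 := by
  refine ⟨Affine.Point.some x y (nonsingular_of_eq a₄ a₆ x y hΔ hxy),
    Affine.Point.some_ne_zero _, five_zsmul_eq_zero a₄ a₆ x y hΔ hxy h5, ?_⟩
  have := five_zsmul_eq_zero a₄ a₆ x y hΔ hxy h5
  exact_mod_cast this

end Fermat.Agent.S52P.Iso.Point3
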