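/-
S52 project (P), brick (ISO-3 POINT), Klein-free core (helper53).

For an arbitrary field `K` and the short model `shortE e h : y² = x³ − 16875·e·x − 843750·h`
(`c₄ = 30⁴·e`, `c₆ = 30⁶·h`, `1728·Δ = 30¹²·(e³ − h²)`):

* `nonsingular_of`: a solution of the cubic equation is a nonsingular point when `Δ ≠ 0`;
* `preΨ_five_eval`: Mathlib's `preΨ 5` of `shortE e h`, evaluated, is the explicit `psi5'`;
* `five_nsmul_of`: a nonsingular point whose abscissa kills `psi5'` satisfies `5 • P = 0`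
  (main's `Lib.ECTors.zsmul_eq_zero_iff_preΨ_of_odd`).
-/
import Mathlib
import Fermat.Agent.Lib.ECTors.MulFormula

set_option autoImplicit false

namespace Fermat.Agent.S52P.Iso.Point53

open WeierstrassCurve

/-- The short model `y² = x³ − 16875·e·x − 843750·h` (so `c₄ = 30⁴·e`, `c₆ = 30⁶·h`). -/
def shortE {K : Type*} [CommRing K] (e h : K) : WeierstrassCurve K :=
  ⟨0, 0, 0, -16875 * e, -843750 * h⟩

section ring

variable {K : Type*} [CommRing K] (e h : K)

@[simp] theorem shortE_a₁ : (shortE e h).a₁ = 0 := rfl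
@[simp] theorem shortE_a₂ : (shortE e h).a₂ = 0 := rfl
@[simp] theorem shortE_a₃ : (shortE e h).a₃ = 0 := rfl
@[simp] theorem shortE_a₄ : (shortE e h).a₄ = -16875 * e := rfl
@[simp] theorem shortE_a₆ : (shortE e h).a₆ = -843750 * h := rfl

theorem shortE_c₄ : (shortE e h).c₄ = 30 ^ 4 * e := by
  simp only [WeierstrassCurve.c₄, WeierstrassCurve.b₂, WeierstrassCurve.b₄, shortE_a₁, shortE_a₂,
    shortE_a₃, shortE_a₄]
  ring

theorem shortE_c₆ : (shortE e h).c₆ = 30 ^ 6 * h := by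
  simp only [WeierstrassCurve.c₆, WeierstrassCurve.b₂, WeierstrassCurve.b₄, WeierstrassCurve.b₆,
    shortE_a₁, shortE_a₂, shortE_a₃, shortE_a₄, shortE_a₆]
  ring

theorem shortE_Δ : (shortE e h).Δ = 307546875000000 * (e ^ 3 - h ^ 2) := by
  simp only [WeierstrassCurve.Δ, WeierstrassCurve.b₂, WeierstrassCurve.b₄, WeierstrassCurve.b₆,
    WeierstrassCurve.b₈, shortE_a₁, shortE_a₂, shortE_a₃, shortE_a₄, shortE_a₆]
  ring

theorem shortE_Δ' : 1728 * (shortE e h).Δ = 30 ^ 12 * (e ^ 3 - h ^ 2) := by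
  rw [shortE_Δ]; ring

/-- The fifth division polynomial `preΨ₄·Ψ₂Sq² − Ψ₃³` of `y² = x³ + a₄ x + a₆`, as a function. -/
def psi5' (x a₄ a₆ : K) : K :=
  (2 * x ^ 6 + 10 * a₄ * x ^ 4 + 40 * a₆ * x ^ 3 - 10 * a₄ ^ 2 * x ^ 2 - 8 * a₄ * a₆ * x
      - 2 * a₄ ^ 3 - 16 * a₆ ^ 2) * (4 * x ^ 3 + 4 * a₄ * x + 4 * a₆) ^ 2
    - (3 * x ^ 4 + 6 * a₄ * x ^ 2 + 12 * a₆ * x - a₄ ^ 2) ^ 3

theorem preΨ_five_eval (x : K) :
    ((shortE e h).preΨ 5).eval x = psi5' x (-16875 * e) (-843750 * h) := by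
  have h5 : (shortE e h).preΨ 5 = (shortE e h).preΨ' 5 := by
    have := (shortE e h).preΨ_ofNat 5
    simpa using this
  have hodd := (shortE e h).preΨ'_odd 0
  norm_num at hodd
  rw [h5, hodd]
  simp only [WeierstrassCurve.Ψ₂Sq, WeierstrassCurve.Ψ₃, WeierstrassCurve.preΨ₄,
    WeierstrassCurve.b₂, WeierstrassCurve.b₄, WeierstrassCurve.b₆, WeierstrassCurve.b₈,
    shortE_a₁, shortE_a₂, shortE_a₃, shortE_a₄, shortE_a₆, psi5']
  simp only [Polynomial.eval_sub, Polynomial.eval_mul, Polynomial.eval_pow, Polynomial.eval_add,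
    Polynomial.eval_C, Polynomial.eval_X, Polynomial.eval_ofNat]
  ring

end ring

section field

variable {K : Type*} [Field K] (e h : K)

/-- A solution of the cubic equation is a nonsingular point of `shortE e h` when `Δ ≠ 0`. -/
theorem nonsingular_of (hΔ : (shortE e h).Δ ≠ 0) {x y : K}
    (hxy : x ^ 3 - 16875 * e * x - 843750 * h = y ^ 2) :
    (shortE e h).toAffine.Nonsingular x y := by
  refine (WeierstrassCurve.Affine.equation_iff_nonsingular_of_Δ_ne_zero hΔ).mp ?_
  rw [WeierstrassCurve.Affine.equation_iff]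
  simp only [shortE_a₁, shortE_a₂, shortE_a₃, shortE_a₄, shortE_a₆]
  linear_combination -hxy

/-- A nonsingular point whose `x`-coordinate kills the fifth division polynomial has `5 • P = 0`. -/
theorem five_nsmul_of [DecidableEq K] {x y : K} (hns : (shortE e h).toAffine.Nonsingular x y)
    (h5 : psi5' x (-16875 * e) (-843750 * h) = 0) :
    (5 : ℕ) • (WeierstrassCurve.Affine.Point.some x y hns) = 0 := by
  have hodd : Odd (5 : ℤ) := by decide
  have := (Fermat.Agent.Lib.ECTors.zsmul_eq_zero_iff_preΨ_of_odd (shortE e h).toAffine hns hodd).mpr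
    (by rw [← h5]; exact preΨ_five_eval e h x)
  exact_mod_cast this

/-- The same with an integer multiple. -/
theorem five_zsmul_of [DecidableEq K] {x y : K} (hns : (shortE e h).toAffine.Nonsingular x y)
    (h5 : psi5' x (-16875 * e) (-843750 * h) = 0) :
    (5 : ℤ) • (WeierstrassCurve.Affine.Point.some x y hns) = 0 := by
  have := five_nsmul_of e h hns h5
  exact_mod_cast this

/-- Packaged form: a solution `(x, y)` of the cubic with `psi5' x = 0` gives a nonzero point
killed by `5` (when `Δ ≠ 0`). -/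
theorem exists_point5_of [DecidableEq K] (hΔ : (shortE e h).Δ ≠ 0) {x y : K}
    (hxy : x ^ 3 - 16875 * e * x - 843750 * h = y ^ 2)
    (h5 : psi5' x (-16875 * e) (-843750 * h) = 0) :
    ∃ P : (shortE e h).toAffine.Point, P ≠ 0 ∧ (5 : ℤ) • P = 0 ∧ (5 : ℕ) • P = 0 :=
  ⟨.some x y (nonsingular_of e h hΔ hxy), WeierstrassCurve.Affine.Point.some_ne_zero _,
    five_zsmul_of e h _ h5, five_nsmul_of e h _ h5⟩

end field

end Fermat.Agent.S52P.Iso.Point53
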